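/-
MAZ row 738 (T1B-U3' TORS), part (TORS-a), helper75: **on an integral two-chart curve of genus `0`
over a field, every line of degree `0` is trivial.**

`c' : TwoChart K C0 C1 C01` over a field `K`, charts domains, finite projective over the line,
`H⁰(O) = K` (`Red68.H0Const c'`) and `H¹(O) = 0` (`H1Zero c'`).  Then `Bal60.deg0 c' hc' = ⊥`.

Proof (no divisors): `χ(L) = χ(O) = 1` gives a nonzero section `σ` of `L`; the same for the dual
gives a nonzero `τ : L → O`; on an integral curve the pairing `τ(σ)` is a nonzero global function,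
hence a nonzero constant, and then `σ : O → L` is an isomorphism (`Red68.nonempty_iso_unit_of_section`).
-/
import Mathlib
import Fermat.Agent.T1B.Bal60.Main
import Fermat.Agent.T1.Red68.Descent
import Fermat.Agent.Jac.RiemannCover82.Cover

set_option autoImplicit false
set_option linter.unusedSectionVars false

universe u

open TensorProduct

namespace Fermat.Agent.MAZ.PicFin75

open Fermat.Agent.Jac Fermat.Agent.Jac.LineOps39 Fermat.Agent.Jac.JGroup85Pic
  Fermat.Agent.Jac.DegAdd79 Fermat.Agent.Jac.JGroup85Euler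
  Fermat.Agent.T1.Red68 Fermat.Agent.T1B.Bal60

variable {K C0 C1 C01 : Type u} [Field K] [CommRing C0] [CommRing C1] [CommRing C01]
  [Algebra K C0] [Algebra K C1] [Algebra K C01] [Algebra C0 C01] [Algebra C1 C01]
  [IsScalarTower K C0 C01] [IsScalarTower K C1 C01]

/-- `H¹(O) = 0` on a two-chart scheme: every function on the overlap is a difference of
functions on the two charts. -/
def H1Zero (_c : TwoChart K C0 C1 C01) : Prop :=
  ∀ z : C01, ∃ (a0 : C0) (a1 : C1), algebraMap C0 C01 a0 - algebraMap C1 C01 a1 = z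

section Unit

variable (c' : TwoChart K C0 C1 C01)

theorem unit_d_apply (x : (QC2.unit : QC2 K C0 C1 C01).N0 × (QC2.unit : QC2 K C0 C1 C01).N1) :
    (QC2.unit : QC2 K C0 C1 C01).d x = algebraMap C0 C01 (show C0 from x.1) - algebraMap C1 C01 (show C1 from x.2) := by
  rw [LineOps39.d_apply]
  rfl

/-- `dim H⁰(O) = 1` if the global functions are the constants. -/
theorem finrank_ker_unit_d [Nontrivial C0] (h0 : H0Const c') :
    Module.finrank K (LinearMap.ker (QC2.unit : QC2 K C0 C1 C01).d) = 1 := by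
  have h1 : (((1 : C0), (1 : C1)) : (QC2.unit : QC2 K C0 C1 C01).N0 × (QC2.unit : QC2 K C0 C1 C01).N1) ∈ LinearMap.ker (QC2.unit : QC2 K C0 C1 C01).d := by
    rw [LinearMap.mem_ker, unit_d_apply]
    show algebraMap C0 C01 1 - algebraMap C1 C01 1 = 0
    rw [map_one, map_one, sub_self]
  rw [finrank_eq_one_iff']
  refine ⟨⟨_, h1⟩, ?_, ?_⟩
  · intro h
    have h2 : (1 : C0) = 0 := congrArg (fun z : LinearMap.ker (QC2.unit : QC2 K C0 C1 C01).d => (show C0 from z.1.1)) h
    exact one_ne_zero h2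
  · rintro ⟨⟨a0, a1⟩, hw⟩
    have hw' := hw
    rw [LinearMap.mem_ker, unit_d_apply] at hw'
    have hw'' : algebraMap C0 C01 (show C0 from a0) = algebraMap C1 C01 (show C1 from a1) :=
      sub_eq_zero.mp hw'
    obtain ⟨d, hd0, hd1⟩ := h0 _ _ hw''
    refine ⟨d, Subtype.ext (Prod.ext ?_ ?_)⟩
    · show d • (1 : C0) = a0
      rw [Algebra.smul_def, mul_one, hd0]
    · show d • (1 : C1) = a1
      rw [Algebra.smul_def, mul_one, hd1]

/-- `dim H¹(O) = 0`. -/
theorem finrank_coker_unit_d (h1 : H1Zero c') :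
    Module.finrank K ((QC2.unit : QC2 K C0 C1 C01).N01 ⧸ LinearMap.range (QC2.unit : QC2 K C0 C1 C01).d) = 0 := by
  have htop : LinearMap.range (QC2.unit : QC2 K C0 C1 C01).d = ⊤ := by
    rw [eq_top_iff]
    intro z _
    obtain ⟨a0, a1, h⟩ := h1 z
    exact ⟨(a0, a1), by rw [unit_d_apply]; exact h⟩
  have : Subsingleton ((QC2.unit : QC2 K C0 C1 C01).N01 ⧸
      LinearMap.range (QC2.unit : QC2 K C0 C1 C01).d) :=
    Submodule.Quotient.subsingleton_iff.mpr htop
  exact Module.finrank_zero_of_subsingleton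

/-- `χ(O) = 1` in genus `0`. -/
theorem chiField_unit_eq_one [Nontrivial C0] (h0 : H0Const c') (h1 : H1Zero c') :
    (QC2.unit : QC2 K C0 C1 C01).chiField K = 1 := by
  rw [chiField_eq_eulerChar]
  unfold eulerChar
  rw [finrank_ker_unit_d c' h0, finrank_coker_unit_d c' h1]
  norm_num

end Unit

variable [IsDomain C0] [IsDomain C1] [Nontrivial C01]

/-- a line of Euler characteristic `≥ 1` has a nonzero global section. -/
theorem exists_section_ne_zero {L : QC2 K C0 C1 C01} (h : 1 ≤ L.chiField K) :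
    ∃ σ : L.H0, σ ≠ 0 := by
  rw [chiField_eq_eulerChar] at h
  unfold eulerChar at h
  have hpos : 0 < Module.finrank K (LinearMap.ker L.d) := by
    have : (0 : ℤ) ≤ Module.finrank K (L.N01 ⧸ LinearMap.range L.d) := Int.natCast_nonneg _
    omega
  have : Nontrivial (LinearMap.ker L.d) := Module.nontrivial_of_finrank_pos (R := K) hpos
  obtain ⟨σ, hσ⟩ := exists_ne (0 : LinearMap.ker L.d)
  exact ⟨σ, hσ⟩

/-- on an invertible module over a domain, a nonzero form does not kill a nonzero vector. -/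
theorem dual_apply_ne_zero {R N : Type*} [CommRing R] [IsDomain R] [AddCommGroup N] [Module R N]
    [Module.Invertible R N] {φ : Module.Dual R N} {x : N} (hφ : φ ≠ 0) (hx : x ≠ 0) :
    φ x ≠ 0 := by
  intro h
  apply hφ
  ext n
  have h1 := Invertible.apply_smul_comm φ x n
  rw [h, zero_smul] at h1
  by_contra hn
  have hn' : φ n ≠ 0 := hn
  exact hx (smul_eq_zero_of_projective (R := R) (N := N) (p := φ n)
    (fun y hy => (mul_eq_zero.mp hy).resolve_left hn') h1.symm)

/-- **(TORS-a) Degree-zero lines on an integral two-chart curve of genus `0` are trivial.** -/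
theorem deg0_eq_bot (c' : TwoChart K C0 C1 C01) (hc' : c'.FiniteProjOverLine)
    (h0 : H0Const c') (h1 : H1Zero c') : deg0 c' hc' = ⊥ := by
  rw [eq_bot_iff]
  intro x hx
  obtain ⟨L, hL, rfl⟩ := LinePic.exists_rep x
  rw [mk_mem_deg0] at hx
  have hχ := chiField_unit_eq_one c' h0 h1
  have hχL : L.chiField K = 1 := hx.trans hχ
  have hχD : (dual c' L (isVB_of_isLine hL)).chiField K = 1 :=
    (chiField_dual_eq_unit c' hc' hL hx).trans hχ
  obtain ⟨σ, hσ⟩ := exists_section_ne_zero (le_of_eq hχL.symm)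
  obtain ⟨τ, hτ⟩ := exists_section_ne_zero (le_of_eq hχD.symm)
  have hσ0 : σ.1.1 ≠ 0 := RiemannCover82.Cover.fst_ne_zero c' hc' hL hσ
  have hτ0 : τ.1.1 ≠ 0 := RiemannCover82.Cover.fst_ne_zero c' hc' (isLine_dual c' hL) hτ
  have i0 := hL.inv0
  have i1 := hL.inv1
  -- the pairing is a nonzero constant
  have hp0 : pair0 c' hL σ τ ≠ 0 := dual_apply_ne_zero (R := C0) (N := L.N0)
    (φ := (show Module.Dual C0 L.N0 from τ.1.1)) hτ0 hσ0
  obtain ⟨d, hd0, hd1⟩ := h0 _ _ (pair_compat c' hL σ τ)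
  have hd : d ≠ 0 := by
    rintro rfl
    rw [map_zero] at hd0
    exact hp0 hd0.symm
  have hu0 : IsUnit ((show Module.Dual C0 L.N0 from τ.1.1) σ.1.1) := by
    show IsUnit (pair0 c' hL σ τ)
    rw [← hd0]
    exact (IsUnit.mk0 d hd).map (algebraMap K C0)
  have hu1 : IsUnit ((show Module.Dual C1 L.N1 from τ.1.2) σ.1.2) := by
    show IsUnit (pair1 c' hL σ τ)
    rw [← hd1]
    exact (IsUnit.mk0 d hd).map (algebraMap K C1)
  obtain ⟨φ⟩ := nonempty_iso_unit_of_section L hL σ _ _ hu0 hu1
  rw [Subgroup.mem_bot, LinePic.one_def]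
  exact LinePic.mk_eq_mk hL isLine_unit (isoSymm φ)

end Fermat.Agent.MAZ.PicFin75
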