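/-
MAZ row 738 (T1B-U3' TORS), part (TORS-b), helper75: **the torus kernel of a two-component
two-chart curve is a torsion group when the ring of nodes is finite** (e.g. over a finite field).

Vocabulary and toolkit: helper85's `T1B/Torus85/{Abstract,Bridge}` (`Closed`, `Rel`, `RelClass`:
a line which is trivial along the two closed subschemes `X`, `Y` has a *node function* `u`, the
ratio of the two generators at the nodes `X ∩ Y`; node functions are multiplicative and a line whose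
node function is a nonzero constant is trivial).

New here:
* `eq_mem_of_smul_mem` : an element generating an invertible module modulo `J` is a basis modulo `J`;
* `Rel.exists_mul_sub_one_mem` : the node function of a LINE is a unit modulo `I_X ⊔ I_Y`;
* `exists_pow_eq_one` : if the node rings `A_j ⧸ (I_X ⊔ I_Y)` (`j = 0, 1`) are finite, there is
  `h > 0` (depending only on the node rings) with `x ^ h = 1` for every class `x` which is trivial
  along `X` and along `Y`;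
* `exists_pow_eq_one_of_bc` : the same in `LinePic.bc` (cube) form, as consumed by `Ker85`.
-/
import Mathlib
import Fermat.Agent.T1B.Torus85.Bridge

set_option autoImplicit false
set_option linter.unusedSectionVars false

open TensorProduct

namespace Fermat.Agent.MAZ.PicFin75

open Fermat.Agent.Jac Fermat.Agent.Jac.LineOps39 Fermat.Agent.Jac.JGroup85Pic
open Fermat.Agent.T1B.Torus85 Fermat.Agent.T1B.Torus85.Closed

universe u

section Algebra

variable {R : Type*} [CommRing R] {N : Type*} [AddCommGroup N] [Module R N]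

/-- **A generator modulo `J` of an invertible module is a basis modulo `J`.** -/
theorem mem_of_smul_mem [Module.Invertible R N] (J : Ideal R) {f : N}
    (hf : ∀ n : N, ∃ a : R, n - a • f ∈ J • (⊤ : Submodule R N)) {r : R}
    (hr : r • f ∈ J • (⊤ : Submodule R N)) : r ∈ J := by
  have hker : RingHom.ker (algebraMap R (R ⧸ J)) = J := by
    rw [Ideal.Quotient.algebraMap_eq, Ideal.mk_ker]
  have hsurj : Function.Surjective (algebraMap R (R ⧸ J)) := by
    rw [Ideal.Quotient.algebraMap_eq]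
    exact Ideal.Quotient.mk_surjective
  -- the map `s ↦ s • (1 ⊗ f)`
  let φ : (R ⧸ J) →ₗ[R ⧸ J] (R ⧸ J) ⊗[R] N :=
    LinearMap.toSpanSingleton (R ⧸ J) ((R ⧸ J) ⊗[R] N) ((1 : R ⧸ J) ⊗ₜ[R] f)
  have hφ : ∀ s : R ⧸ J, φ s = s • ((1 : R ⧸ J) ⊗ₜ[R] f) := fun s => rfl
  have hφs : Function.Surjective φ := by
    intro z
    obtain ⟨n, rfl⟩ := exists_one_tmul_eq hsurj z
    obtain ⟨a, ha⟩ := hf n
    rw [← hker] at ha
    have h1 := one_tmul_eq_zero_of_mem_ker_smul_top (R' := R ⧸ J) ha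
    rw [TensorProduct.tmul_sub, sub_eq_zero] at h1
    refine ⟨algebraMap R (R ⧸ J) a, ?_⟩
    rw [hφ, h1, TensorProduct.tmul_smul, algebraMap_smul]
  have hφb := Module.Invertible.bijective_of_surjective (R := R ⧸ J) (M := R ⧸ J)
    (N := (R ⧸ J) ⊗[R] N) hφs
  have h0 : φ (algebraMap R (R ⧸ J) r) = 0 := by
    rw [hφ, algebraMap_smul, ← TensorProduct.tmul_smul]
    rw [← hker] at hr
    exact one_tmul_eq_zero_of_mem_ker_smul_top (R' := R ⧸ J) hr
  have h1 : algebraMap R (R ⧸ J) r = 0 := hφb.1 (by rw [h0, map_zero])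
  rwa [← RingHom.mem_ker, hker] at h1

end Algebra

variable {κ A0 A1 A01 : Type u} [Field κ] [CommRing A0] [CommRing A1] [CommRing A01]
  [Algebra κ A0] [Algebra κ A1] [Algebra κ A01] [Algebra A0 A01] [Algebra A1 A01]
  [IsScalarTower κ A0 A01] [IsScalarTower κ A1 A01]

variable {X Y : Closed A0 A1 A01}

/-- **The node function of a line is a unit at the nodes.** -/
theorem Rel.exists_mul_sub_one_mem {L : QC2 κ A0 A1 A01} (hL : L.IsLine) {u0 : A0} {u1 : A1}
    (h : Rel X Y L u0 u1) :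
    (∃ a0 : A0, a0 * u0 - 1 ∈ X.I0 ⊔ Y.I0) ∧ ∃ a1 : A1, a1 * u1 - 1 ∈ X.I1 ⊔ Y.I1 := by
  obtain ⟨e0, e1, f0, f1, he, hf, h0, h1⟩ := h
  have i0 := hL.inv0
  have i1 := hL.inv1
  constructor
  · obtain ⟨a, ha⟩ := he.gen0 f0
    refine ⟨a, ?_⟩
    refine mem_of_smul_mem (X.I0 ⊔ Y.I0) (f := f0)
      (fun n => (hf.gen0 n).imp fun b hb => smul_top_le_sup_right _ _ hb) ?_
    have : (a * u0 - 1) • f0 = -(f0 - a • e0) - a • (e0 - u0 • f0) := by
      rw [sub_smul, mul_smul, one_smul, smul_sub]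
      abel
    rw [this]
    exact sub_mem (neg_mem (smul_top_le_sup_left _ _ ha)) (Submodule.smul_mem _ _ h0)
  · obtain ⟨a, ha⟩ := he.gen1 f1
    refine ⟨a, ?_⟩
    refine mem_of_smul_mem (X.I1 ⊔ Y.I1) (f := f1)
      (fun n => (hf.gen1 n).imp fun b hb => smul_top_le_sup_right _ _ hb) ?_
    have : (a * u1 - 1) • f1 = -(f1 - a • e1) - a • (e1 - u1 • f1) := by
      rw [sub_smul, mul_smul, one_smul, smul_sub]
      abel
    rw [this]
    exact sub_mem (neg_mem (smul_top_le_sup_left _ _ ha)) (Submodule.smul_mem _ _ h1)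

/-- in a finite ring, an element with a left inverse has a power equal to `1`, with an exponent
depending only on the ring. -/
theorem mk_pow_card_units_eq_one {R : Type*} [CommRing R] (J : Ideal R) [Finite (R ⧸ J)]
    {a u : R} (h : a * u - 1 ∈ J) : Ideal.Quotient.mk J u ^ Nat.card (R ⧸ J)ˣ = 1 := by
  have h1 : Ideal.Quotient.mk J u * Ideal.Quotient.mk J a = 1 := by
    rw [mul_comm, ← map_mul, ← map_one (Ideal.Quotient.mk J), ← sub_eq_zero, ← map_sub]
    exact Ideal.Quotient.eq_zero_iff_mem.mpr h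
  have hu : IsUnit (Ideal.Quotient.mk J u) := IsUnit.of_mul_eq_one _ h1
  obtain ⟨w, hw⟩ := hu
  have h2 : w ^ Nat.card (R ⧸ J)ˣ = 1 := pow_card_eq_one'
  rw [← hw, ← Units.val_pow_eq_pow_val, h2, Units.val_one]

variable {c : TwoChart κ A0 A1 A01}

/-- **(TORS-b) The torus kernel is torsion when the node rings are finite.**  `X`, `Y` closed
subschemes covering the two-chart curve `c` (`I_X · I_Y = ⊥` on the charts, `I_X ⊓ I_Y = ⊥` on
the overlap) whose rings of nodes `A_j ⧸ (I_X ⊔ I_Y)` are finite.  There is `h > 0` such that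
`x ^ h = 1` for every class `x` which is trivial along `X` and along `Y`. -/
theorem exists_pow_eq_one (h0 : X.I0 * Y.I0 = ⊥) (h1 : X.I1 * Y.I1 = ⊥)
    (h01 : X.I01 ⊓ Y.I01 = ⊥) [Finite (A0 ⧸ (X.I0 ⊔ Y.I0))] [Finite (A1 ⧸ (X.I1 ⊔ Y.I1))] :
    ∃ h : ℕ, 0 < h ∧ ∀ x : LinePic c, X.TrivOnClass c x → Y.TrivOnClass c x → x ^ h = 1 := by
  set n0 := Nat.card (A0 ⧸ (X.I0 ⊔ Y.I0))ˣ with hn0
  set n1 := Nat.card (A1 ⧸ (X.I1 ⊔ Y.I1))ˣ with hn1
  have hn0pos : 0 < n0 := Nat.card_pos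
  have hn1pos : 0 < n1 := Nat.card_pos
  refine ⟨n0 * n1, Nat.mul_pos hn0pos hn1pos, fun x hX hY => ?_⟩
  obtain ⟨u0, u1, hu⟩ := exists_relClass hX hY
  obtain ⟨k, hk⟩ : ∃ k, n0 * n1 = k + 1 :=
    ⟨n0 * n1 - 1, (Nat.sub_add_cancel (Nat.mul_pos hn0pos hn1pos)).symm⟩
  have hpow := hu.pow k
  rw [← hk] at hpow
  obtain ⟨L, hL, hxL, hL'⟩ := hu
  obtain ⟨⟨a0, ha0⟩, ⟨a1, ha1⟩⟩ := Rel.exists_mul_sub_one_mem hL hL'
  have key0 : u0 ^ (n0 * n1) - algebraMap κ A0 1 ∈ X.I0 ⊔ Y.I0 := by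
    rw [map_one, ← Ideal.Quotient.eq_zero_iff_mem, map_sub, map_pow, pow_mul,
      mk_pow_card_units_eq_one (X.I0 ⊔ Y.I0) ha0, one_pow, map_one, sub_self]
  have key1 : u1 ^ (n0 * n1) - algebraMap κ A1 1 ∈ X.I1 ⊔ Y.I1 := by
    rw [map_one, ← Ideal.Quotient.eq_zero_iff_mem, map_sub, map_pow, mul_comm, pow_mul,
      mk_pow_card_units_eq_one (X.I1 ⊔ Y.I1) ha1, one_pow, map_one, sub_self]
  obtain ⟨M, hM, hxM, hM'⟩ := hpow
  obtain ⟨φ⟩ := hM'.nonempty_iso_unit hM h0 h1 h01 one_ne_zero key0 key1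
  rw [hxM, LinePic.one_def]
  exact LinePic.mk_eq_mk hM isLine_unit (isoSymm φ)

section Cube

variable
  -- the component `X`
  {X0 X1 X01 : Type u} [CommRing X0] [CommRing X1] [CommRing X01]
  [Algebra κ X0] [Algebra κ X1] [Algebra κ X01] [Algebra X0 X01] [Algebra X1 X01]
  [IsScalarTower κ X0 X01] [IsScalarTower κ X1 X01]
  [Algebra A0 X0] [Algebra A1 X1] [Algebra A01 X01]
  -- the component `Y`
  {Y0 Y1 Y01 : Type u} [CommRing Y0] [CommRing Y1] [CommRing Y01]
  [Algebra κ Y0] [Algebra κ Y1] [Algebra κ Y01] [Algebra Y0 Y01] [Algebra Y1 Y01]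
  [IsScalarTower κ Y0 Y01] [IsScalarTower κ Y1 Y01]
  [Algebra A0 Y0] [Algebra A1 Y1] [Algebra A01 Y01]

/-- **(TORS-b), `LinePic.bc` form.**  `c` a two-chart curve over a field `κ`, `cX`, `cY` two
closed sub-curves (cubes of surjective ring maps) covering `c` (`ker ⊓ ker = ⊥` on the three
opens) with FINITE rings of nodes.  There is `h > 0` with `x ^ h = 1` for every class `x` whose
restrictions to `cX` and `cY` are trivial. -/
theorem exists_pow_eq_one_of_bc
    (c : TwoChart κ A0 A1 A01) (cX : TwoChart κ X0 X1 X01) (cY : TwoChart κ Y0 Y1 Y01)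
    (hX0 : (algebraMap X0 X01).comp (algebraMap A0 X0) =
      (algebraMap A01 X01).comp (algebraMap A0 A01))
    (hX1 : (algebraMap X1 X01).comp (algebraMap A1 X1) =
      (algebraMap A01 X01).comp (algebraMap A1 A01))
    (hY0 : (algebraMap Y0 Y01).comp (algebraMap A0 Y0) =
      (algebraMap A01 Y01).comp (algebraMap A0 A01))
    (hY1 : (algebraMap Y1 Y01).comp (algebraMap A1 Y1) =
      (algebraMap A01 Y01).comp (algebraMap A1 A01))
    (sX0 : Function.Surjective (algebraMap A0 X0)) (sX1 : Function.Surjective (algebraMap A1 X1))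
    (sX01 : Function.Surjective (algebraMap A01 X01))
    (sY0 : Function.Surjective (algebraMap A0 Y0)) (sY1 : Function.Surjective (algebraMap A1 Y1))
    (sY01 : Function.Surjective (algebraMap A01 Y01))
    (h0 : RingHom.ker (algebraMap A0 X0) ⊓ RingHom.ker (algebraMap A0 Y0) = ⊥)
    (h1 : RingHom.ker (algebraMap A1 X1) ⊓ RingHom.ker (algebraMap A1 Y1) = ⊥)
    (h01 : RingHom.ker (algebraMap A01 X01) ⊓ RingHom.ker (algebraMap A01 Y01) = ⊥)
    [Finite (A0 ⧸ (RingHom.ker (algebraMap A0 X0) ⊔ RingHom.ker (algebraMap A0 Y0)))]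
    [Finite (A1 ⧸ (RingHom.ker (algebraMap A1 X1) ⊔ RingHom.ker (algebraMap A1 Y1)))] :
    ∃ h : ℕ, 0 < h ∧ ∀ x : LinePic c, LinePic.bc hX0 hX1 c cX x = 1 →
      LinePic.bc hY0 hY1 c cY x = 1 → x ^ h = 1 := by
  have m0 : (Closed.ofCube hX0 hX1).I0 * (Closed.ofCube hY0 hY1).I0 = ⊥ :=
    le_bot_iff.1 (h0 ▸ Ideal.mul_le_inf)
  have m1 : (Closed.ofCube hX0 hX1).I1 * (Closed.ofCube hY0 hY1).I1 = ⊥ :=
    le_bot_iff.1 (h1 ▸ Ideal.mul_le_inf)
  have f0 : Finite (A0 ⧸ ((Closed.ofCube hX0 hX1).I0 ⊔ (Closed.ofCube hY0 hY1).I0)) :=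
    ‹Finite (A0 ⧸ (RingHom.ker (algebraMap A0 X0) ⊔ RingHom.ker (algebraMap A0 Y0)))›
  have f1 : Finite (A1 ⧸ ((Closed.ofCube hX0 hX1).I1 ⊔ (Closed.ofCube hY0 hY1).I1)) :=
    ‹Finite (A1 ⧸ (RingHom.ker (algebraMap A1 X1) ⊔ RingHom.ker (algebraMap A1 Y1)))›
  obtain ⟨h, hpos, hh⟩ := exists_pow_eq_one (c := c) (X := Closed.ofCube hX0 hX1)
    (Y := Closed.ofCube hY0 hY1) m0 m1 h01
  exact ⟨h, hpos, fun x hxX hxY => hh x
    (trivOnClass_of_bc_eq_one hX0 hX1 c cX sX0 sX1 sX01 hxX)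
    (trivOnClass_of_bc_eq_one hY0 hY1 c cY sY0 sY1 sY01 hxY)⟩

end Cube

end Fermat.Agent.MAZ.PicFin75
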