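/-
MAZ row 738 (T1B-U3' TORS), part (TORS-b'), helper75: **the torus kernel of a two-component
two-chart curve is a torsion group as soon as the units of the rings of nodes are torsion**
(finite residue field: `TorusTorsion.lean`, uniform exponent; here: also `κ = 𝔽̄_p`, where the
exponent depends on the class).

The hypothesis is elementwise, so that it transports along surjections of rings:

  `UnitsTorsionMod J : ∀ a u, a * u - 1 ∈ J → ∃ n > 0, u ^ n - 1 ∈ J`.

* `unitsTorsionMod_of_finite`, `unitsTorsionMod_of_isTorsion` : providers;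
* `UnitsTorsionMod.of_surjective` : transport along a surjection `a : R → R'` with `comap a J' ≤ J`;
* `exists_pow_eq_one_of_unitsTorsion` : `Closed` form;
* `exists_pow_eq_one_of_bc_of_unitsTorsion` : `LinePic.bc` (cube) form.
-/
import Mathlib
import Fermat.Agent.MAZ.PicFin75.TorusTorsion

set_option autoImplicit false
set_option linter.unusedSectionVars false

open TensorProduct

namespace Fermat.Agent.MAZ.PicFin75

open Fermat.Agent.Jac Fermat.Agent.Jac.LineOps39 Fermat.Agent.Jac.JGroup85Pic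
open Fermat.Agent.T1B.Torus85 Fermat.Agent.T1B.Torus85.Closed

universe u

/-! ### The elementwise torsion hypothesis -/

section Units

variable {R R' : Type*} [CommRing R] [CommRing R']

/-- The units of `R ⧸ J` form a torsion group, elementwise form. -/
def UnitsTorsionMod (J : Ideal R) : Prop :=
  ∀ a u : R, a * u - 1 ∈ J → ∃ n : ℕ, 0 < n ∧ u ^ n - 1 ∈ J

theorem unitsTorsionMod_of_finite (J : Ideal R) [Finite (R ⧸ J)] : UnitsTorsionMod J := by
  intro a u h
  refine ⟨Nat.card (R ⧸ J)ˣ, Nat.card_pos, ?_⟩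
  rw [← Ideal.Quotient.eq_zero_iff_mem, map_sub, map_pow, mk_pow_card_units_eq_one J h, map_one,
    sub_self]

theorem unitsTorsionMod_of_isTorsion (J : Ideal R) (h : IsMulTorsion (R ⧸ J)ˣ) :
    UnitsTorsionMod J := by
  intro a u hau
  have h1 : Ideal.Quotient.mk J u * Ideal.Quotient.mk J a = 1 := by
    rw [mul_comm, ← map_mul, ← map_one (Ideal.Quotient.mk J), ← sub_eq_zero, ← map_sub]
    exact Ideal.Quotient.eq_zero_iff_mem.mpr hau
  obtain ⟨w, hw⟩ := IsUnit.of_mul_eq_one _ h1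
  obtain ⟨n, hn, hwn⟩ := (isOfFinOrder_iff_pow_eq_one).1 (h w)
  refine ⟨n, hn, ?_⟩
  rw [← Ideal.Quotient.eq_zero_iff_mem, map_sub, map_pow, ← hw, ← Units.val_pow_eq_pow_val, hwn,
    Units.val_one, map_one, sub_self]

/-- Transport along a surjection. -/
theorem UnitsTorsionMod.of_surjective {J : Ideal R} (hJ : UnitsTorsionMod J) (a : R →+* R')
    (ha : Function.Surjective a) {J' : Ideal R'} (h1 : J'.comap a ≤ J) (h2 : J ≤ J'.comap a) :
    UnitsTorsionMod J' := by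
  intro b' u' hbu
  obtain ⟨b, rfl⟩ := ha b'
  obtain ⟨u, rfl⟩ := ha u'
  have hmem : b * u - 1 ∈ J := h1 (by rw [Ideal.mem_comap, map_sub, map_mul, map_one]; exact hbu)
  obtain ⟨n, hn, hun⟩ := hJ b u hmem
  refine ⟨n, hn, ?_⟩
  have := h2 hun
  rwa [Ideal.mem_comap, map_sub, map_pow, map_one] at this

/-- `comap` of a sup of two kernels along a surjection. -/
theorem comap_ker_sup_ker_le {C D : Type*} [CommRing C] [CommRing D] (a : R →+* R')
    (ha : Function.Surjective a) (f' : R' →+* C) (g' : R' →+* D) :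
    (RingHom.ker f' ⊔ RingHom.ker g').comap a ≤
      RingHom.ker (f'.comp a) ⊔ RingHom.ker (g'.comp a) := by
  intro z hz
  rw [Ideal.mem_comap] at hz
  obtain ⟨k0, hk0, k1, hk1, hk⟩ := Submodule.mem_sup.1 hz
  obtain ⟨z0, rfl⟩ := ha k0
  refine Submodule.mem_sup.2 ⟨z0, ?_, z - z0, ?_, by ring⟩
  · rw [RingHom.mem_ker, RingHom.comp_apply]; exact hk0
  · rw [RingHom.mem_ker, RingHom.comp_apply, map_sub, ← hk, add_sub_cancel_left]; exact hk1

theorem ker_sup_ker_le_comap {C D : Type*} [CommRing C] [CommRing D] (a : R →+* R')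
    (f' : R' →+* C) (g' : R' →+* D) :
    RingHom.ker (f'.comp a) ⊔ RingHom.ker (g'.comp a) ≤
      (RingHom.ker f' ⊔ RingHom.ker g').comap a := by
  refine sup_le ?_ ?_
  · intro z hz
    rw [Ideal.mem_comap]
    exact Ideal.mem_sup_left (by rwa [RingHom.mem_ker, RingHom.comp_apply] at hz)
  · intro z hz
    rw [Ideal.mem_comap]
    exact Ideal.mem_sup_right (by rwa [RingHom.mem_ker, RingHom.comp_apply] at hz)

end Units

/-! ### The torus kernel is torsion -/

variable {κ A0 A1 A01 : Type u} [Field κ] [CommRing A0] [CommRing A1] [CommRing A01]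
  [Algebra κ A0] [Algebra κ A1] [Algebra κ A01] [Algebra A0 A01] [Algebra A1 A01]
  [IsScalarTower κ A0 A01] [IsScalarTower κ A1 A01]

variable {X Y : Closed A0 A1 A01} {c : TwoChart κ A0 A1 A01}

theorem pow_mul_sub_one_mem {R : Type*} [CommRing R] (J : Ideal R) {u : R} {n : ℕ}
    (h : u ^ n - 1 ∈ J) (m : ℕ) : u ^ (n * m) - 1 ∈ J := by
  rw [← Ideal.Quotient.eq_zero_iff_mem, map_sub, map_pow, map_one, sub_eq_zero] at h ⊢
  rw [pow_mul, h, one_pow]

/-- **(TORS-b') The torus kernel is torsion when the units of the node rings are torsion.** -/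
theorem exists_pow_eq_one_of_unitsTorsion (h0 : X.I0 * Y.I0 = ⊥) (h1 : X.I1 * Y.I1 = ⊥)
    (h01 : X.I01 ⊓ Y.I01 = ⊥) (t0 : UnitsTorsionMod (X.I0 ⊔ Y.I0))
    (t1 : UnitsTorsionMod (X.I1 ⊔ Y.I1)) (x : LinePic c) (hX : X.TrivOnClass c x)
    (hY : Y.TrivOnClass c x) : ∃ h : ℕ, 0 < h ∧ x ^ h = 1 := by
  obtain ⟨u0, u1, hu⟩ := exists_relClass hX hY
  obtain ⟨L, hL, hxL, hL'⟩ := id hu
  obtain ⟨⟨a0, ha0⟩, ⟨a1, ha1⟩⟩ := Rel.exists_mul_sub_one_mem hL hL'
  obtain ⟨n0, hn0pos, hn0⟩ := t0 a0 u0 ha0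
  obtain ⟨n1, hn1pos, hn1⟩ := t1 a1 u1 ha1
  refine ⟨n0 * n1, Nat.mul_pos hn0pos hn1pos, ?_⟩
  obtain ⟨k, hk⟩ : ∃ k, n0 * n1 = k + 1 :=
    ⟨n0 * n1 - 1, (Nat.sub_add_cancel (Nat.mul_pos hn0pos hn1pos)).symm⟩
  have hpow := hu.pow k
  rw [← hk] at hpow
  have key0 : u0 ^ (n0 * n1) - algebraMap κ A0 1 ∈ X.I0 ⊔ Y.I0 := by
    rw [map_one]; exact pow_mul_sub_one_mem _ hn0 n1
  have key1 : u1 ^ (n0 * n1) - algebraMap κ A1 1 ∈ X.I1 ⊔ Y.I1 := by
    rw [map_one, mul_comm]; exact pow_mul_sub_one_mem _ hn1 n0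
  obtain ⟨M, hM, hxM, hM'⟩ := hpow
  obtain ⟨φ⟩ := hM'.nonempty_iso_unit hM h0 h1 h01 one_ne_zero key0 key1
  rw [hxM, LinePic.one_def]
  exact LinePic.mk_eq_mk hM isLine_unit (isoSymm φ)

section Cube

variable
  -- the component `X`
  {X0 X1 X01 : Type u} [CommRing X0] [CommRing X1] [CommRing X01]
  [Algebra κ X0] [Algebra κ X1] [Algebra κ X01] [Algebra X0 X01] [Algebra X1 X01]
  [IsScalarTower κ X0 X01] [IsScalarTower κ X1 X01]
  [Algebra A0 X0] [Algebra A1 X1] [Algebra A01 X01]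
  -- the component `Y`
  {Y0 Y1 Y01 : Type u} [CommRing Y0] [CommRing Y1] [CommRing Y01]
  [Algebra κ Y0] [Algebra κ Y1] [Algebra κ Y01] [Algebra Y0 Y01] [Algebra Y1 Y01]
  [IsScalarTower κ Y0 Y01] [IsScalarTower κ Y1 Y01]
  [Algebra A0 Y0] [Algebra A1 Y1] [Algebra A01 Y01]

/-- **(TORS-b'), `LinePic.bc` form.** -/
theorem exists_pow_eq_one_of_bc_of_unitsTorsion
    (c : TwoChart κ A0 A1 A01) (cX : TwoChart κ X0 X1 X01) (cY : TwoChart κ Y0 Y1 Y01)
    (hX0 : (algebraMap X0 X01).comp (algebraMap A0 X0) =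
      (algebraMap A01 X01).comp (algebraMap A0 A01))
    (hX1 : (algebraMap X1 X01).comp (algebraMap A1 X1) =
      (algebraMap A01 X01).comp (algebraMap A1 A01))
    (hY0 : (algebraMap Y0 Y01).comp (algebraMap A0 Y0) =
      (algebraMap A01 Y01).comp (algebraMap A0 A01))
    (hY1 : (algebraMap Y1 Y01).comp (algebraMap A1 Y1) =
      (algebraMap A01 Y01).comp (algebraMap A1 A01))
    (sX0 : Function.Surjective (algebraMap A0 X0)) (sX1 : Function.Surjective (algebraMap A1 X1))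
    (sX01 : Function.Surjective (algebraMap A01 X01))
    (sY0 : Function.Surjective (algebraMap A0 Y0)) (sY1 : Function.Surjective (algebraMap A1 Y1))
    (sY01 : Function.Surjective (algebraMap A01 Y01))
    (h0 : RingHom.ker (algebraMap A0 X0) ⊓ RingHom.ker (algebraMap A0 Y0) = ⊥)
    (h1 : RingHom.ker (algebraMap A1 X1) ⊓ RingHom.ker (algebraMap A1 Y1) = ⊥)
    (h01 : RingHom.ker (algebraMap A01 X01) ⊓ RingHom.ker (algebraMap A01 Y01) = ⊥)
    (t0 : UnitsTorsionMod (RingHom.ker (algebraMap A0 X0) ⊔ RingHom.ker (algebraMap A0 Y0)))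
    (t1 : UnitsTorsionMod (RingHom.ker (algebraMap A1 X1) ⊔ RingHom.ker (algebraMap A1 Y1)))
    (x : LinePic c) (hxX : LinePic.bc hX0 hX1 c cX x = 1) (hxY : LinePic.bc hY0 hY1 c cY x = 1) :
    ∃ h : ℕ, 0 < h ∧ x ^ h = 1 := by
  have m0 : (Closed.ofCube hX0 hX1).I0 * (Closed.ofCube hY0 hY1).I0 = ⊥ :=
    le_bot_iff.1 (h0 ▸ Ideal.mul_le_inf)
  have m1 : (Closed.ofCube hX0 hX1).I1 * (Closed.ofCube hY0 hY1).I1 = ⊥ :=
    le_bot_iff.1 (h1 ▸ Ideal.mul_le_inf)
  exact exists_pow_eq_one_of_unitsTorsion (c := c) (X := Closed.ofCube hX0 hX1)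
    (Y := Closed.ofCube hY0 hY1) m0 m1 h01 t0 t1 x
    (trivOnClass_of_bc_eq_one hX0 hX1 c cX sX0 sX1 sX01 hxX)
    (trivOnClass_of_bc_eq_one hY0 hY1 c cY sY0 sY1 sY01 hxY)

end Cube

end Fermat.Agent.MAZ.PicFin75
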