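/-
MAZ row 738 (T1B-U3' TORS), ASSEMBLY, helper75: **`J⁰(L) / J¹(L)` is a torsion group** when the two
components of the nodal special fibre have genus `0` and the units of the rings of nodes are torsion
(e.g. finite residue field, or `κ = 𝔽̄_p`).  This is the hypothesis `htors` of helper43's
`K3Abs43.exists_division_point_of_torsion`, in helper3/helper60's vocabulary
(`RedN3.J0L`, `RedN3.J1L`, `Bal60.Comp`, `Bal60.P00`), shaped like helper85's
`Ker85.mem_J1L_of_res_eq_one`.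

* `exists_pow_mem_J1L_of_bc` : cube form, any `P00`: a class `x ∈ P00` whose restrictions to the two
  components `cX`, `cY` of the special fibre are trivial has `(x_L) ^ h ∈ J¹(L)` for some `h > 0`;
* `exists_pow_mem_J1L_of_res_eq_one` : `Comp` form, core: `x ∈ P00 hg X` with `(X i).res x = 1`;
* `exists_pow_mem_J1L` : **`Comp` form**: `hg : NodalGood (c0.baseChange O) π (Fin 2)`, `X i` the two
  components, both of genus `0` (`Red68.H0Const`, `H1Zero`): every `y ∈ J⁰(L)` has a power in `J¹(L)`;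
* `exists_pow_mem_J1L_of_finite` : the same with FINITE rings of nodes (finite residue field).

Inputs of (TORS-a) `GenusZero.deg0_eq_bot` and (TORS-b') `TorusTorsionGen`.
-/
import Mathlib
import Fermat.Agent.T1B.Bal60.Hub
import Fermat.Agent.T1B.RedN3.Shell
import Fermat.Agent.MAZ.PicFin75.TorusTorsionGen
import Fermat.Agent.MAZ.PicFin75.GenusZero

set_option autoImplicit false
set_option linter.unusedSectionVars false
set_option linter.style.haveILetI false

open TensorProduct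

namespace Fermat.Agent.MAZ.PicFin75

open Fermat.Agent.Jac Fermat.Agent.Jac.LineOps39 Fermat.Agent.Jac.JGroup85Pic
open Fermat.Agent.Jac.JSmooth85Alg Fermat.Agent.Jac.BaseChange75
open Fermat.Agent.T1.RedIface75 Fermat.Agent.T1B.RedN3 Fermat.Agent.T1B.Bal60
open scoped Fermat.Agent.Jac.BaseChange75

universe u

/-! ### Two ring lemmas (as in `Ker85.AsmComp`, restated to keep the import closure small) -/

section Rings

variable {R R' C D : Type*} [CommRing R] [CommRing R'] [CommRing C] [CommRing D]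

theorem ker_inf_ker_eq_bot_of_surj (a : R →+* R') (ha : Function.Surjective a)
    (f' : R' →+* C) (g' : R' →+* D)
    (h : ∀ x : R, f' (a x) = 0 → g' (a x) = 0 → a x = 0) :
    RingHom.ker f' ⊓ RingHom.ker g' = ⊥ := by
  rw [eq_bot_iff]
  intro z hz
  obtain ⟨x, rfl⟩ := ha z
  rw [Ideal.mem_inf, RingHom.mem_ker, RingHom.mem_ker] at hz
  exact (Ideal.mem_bot).2 (h x hz.1 hz.2)

end Rings

/-! ### Cube form -/

section CubeForm

variable {W B0 B1 B01 : Type u} [CommRing W] [CommRing B0] [CommRing B1] [CommRing B01]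
  [Algebra W B0] [Algebra W B1] [Algebra W B01] [Algebra B0 B01] [Algebra B1 B01]
  [IsScalarTower W B0 B01] [IsScalarTower W B1 B01]
  {c0 : TwoChart W B0 B1 B01}
  {O : Type u} [CommRing O] [IsDomain O] [IsDiscreteValuationRing O] [Algebra W O]
  {L : Type u} [CommRing L] [Algebra W L] [Algebra O L] [IsScalarTower W O L]
  {P00 : Subgroup (PicX c0 O)}
  -- the component `X` of the special fibre, also as a quotient of the integral model
  {X0 X1 X01 : Type u} [CommRing X0] [CommRing X1] [CommRing X01]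
  [Algebra (IsLocalRing.ResidueField O) X0] [Algebra (IsLocalRing.ResidueField O) X1]
  [Algebra (IsLocalRing.ResidueField O) X01] [Algebra X0 X01] [Algebra X1 X01]
  [IsScalarTower (IsLocalRing.ResidueField O) X0 X01]
  [IsScalarTower (IsLocalRing.ResidueField O) X1 X01]
  [Algebra ((IsLocalRing.ResidueField O) ⊗[W] B0) X0]
  [Algebra ((IsLocalRing.ResidueField O) ⊗[W] B1) X1]
  [Algebra ((IsLocalRing.ResidueField O) ⊗[W] B01) X01]
  [Algebra (O ⊗[W] B0) X0] [Algebra (O ⊗[W] B1) X1] [Algebra (O ⊗[W] B01) X01]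
  [IsScalarTower (O ⊗[W] B0) ((IsLocalRing.ResidueField O) ⊗[W] B0) X0]
  [IsScalarTower (O ⊗[W] B1) ((IsLocalRing.ResidueField O) ⊗[W] B1) X1]
  [IsScalarTower (O ⊗[W] B01) ((IsLocalRing.ResidueField O) ⊗[W] B01) X01]
  -- the component `Y`
  {Y0 Y1 Y01 : Type u} [CommRing Y0] [CommRing Y1] [CommRing Y01]
  [Algebra (IsLocalRing.ResidueField O) Y0] [Algebra (IsLocalRing.ResidueField O) Y1]
  [Algebra (IsLocalRing.ResidueField O) Y01] [Algebra Y0 Y01] [Algebra Y1 Y01]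
  [IsScalarTower (IsLocalRing.ResidueField O) Y0 Y01]
  [IsScalarTower (IsLocalRing.ResidueField O) Y1 Y01]
  [Algebra ((IsLocalRing.ResidueField O) ⊗[W] B0) Y0]
  [Algebra ((IsLocalRing.ResidueField O) ⊗[W] B1) Y1]
  [Algebra ((IsLocalRing.ResidueField O) ⊗[W] B01) Y01]
  [Algebra (O ⊗[W] B0) Y0] [Algebra (O ⊗[W] B1) Y1] [Algebra (O ⊗[W] B01) Y01]
  [IsScalarTower (O ⊗[W] B0) ((IsLocalRing.ResidueField O) ⊗[W] B0) Y0]
  [IsScalarTower (O ⊗[W] B1) ((IsLocalRing.ResidueField O) ⊗[W] B1) Y1]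
  [IsScalarTower (O ⊗[W] B01) ((IsLocalRing.ResidueField O) ⊗[W] B01) Y01]

/-- **TORS, cube form.**  `x ∈ P00` a class on the integral model whose restrictions to the two
components `cX`, `cY` of the special fibre are trivial.  If the units of the rings of nodes are
torsion, some power of the generic fibre of `x` lies in `J¹(L)`. -/
theorem exists_pow_mem_J1L_of_bc
    (cX : TwoChart (IsLocalRing.ResidueField O) X0 X1 X01)
    (cY : TwoChart (IsLocalRing.ResidueField O) Y0 Y1 Y01)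
    (hX0 : (algebraMap X0 X01).comp (algebraMap ((IsLocalRing.ResidueField O) ⊗[W] B0) X0) =
      (algebraMap ((IsLocalRing.ResidueField O) ⊗[W] B01) X01).comp
        (algebraMap ((IsLocalRing.ResidueField O) ⊗[W] B0) ((IsLocalRing.ResidueField O) ⊗[W] B01)))
    (hX1 : (algebraMap X1 X01).comp (algebraMap ((IsLocalRing.ResidueField O) ⊗[W] B1) X1) =
      (algebraMap ((IsLocalRing.ResidueField O) ⊗[W] B01) X01).comp
        (algebraMap ((IsLocalRing.ResidueField O) ⊗[W] B1) ((IsLocalRing.ResidueField O) ⊗[W] B01)))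
    (hY0 : (algebraMap Y0 Y01).comp (algebraMap ((IsLocalRing.ResidueField O) ⊗[W] B0) Y0) =
      (algebraMap ((IsLocalRing.ResidueField O) ⊗[W] B01) Y01).comp
        (algebraMap ((IsLocalRing.ResidueField O) ⊗[W] B0) ((IsLocalRing.ResidueField O) ⊗[W] B01)))
    (hY1 : (algebraMap Y1 Y01).comp (algebraMap ((IsLocalRing.ResidueField O) ⊗[W] B1) Y1) =
      (algebraMap ((IsLocalRing.ResidueField O) ⊗[W] B01) Y01).comp
        (algebraMap ((IsLocalRing.ResidueField O) ⊗[W] B1) ((IsLocalRing.ResidueField O) ⊗[W] B01)))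
    (hX0' : (algebraMap X0 X01).comp (algebraMap (O ⊗[W] B0) X0) =
      (algebraMap (O ⊗[W] B01) X01).comp (algebraMap (O ⊗[W] B0) (O ⊗[W] B01)))
    (hX1' : (algebraMap X1 X01).comp (algebraMap (O ⊗[W] B1) X1) =
      (algebraMap (O ⊗[W] B01) X01).comp (algebraMap (O ⊗[W] B1) (O ⊗[W] B01)))
    (hY0' : (algebraMap Y0 Y01).comp (algebraMap (O ⊗[W] B0) Y0) =
      (algebraMap (O ⊗[W] B01) Y01).comp (algebraMap (O ⊗[W] B0) (O ⊗[W] B01)))
    (hY1' : (algebraMap Y1 Y01).comp (algebraMap (O ⊗[W] B1) Y1) =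
      (algebraMap (O ⊗[W] B01) Y01).comp (algebraMap (O ⊗[W] B1) (O ⊗[W] B01)))
    (sX0 : Function.Surjective (algebraMap ((IsLocalRing.ResidueField O) ⊗[W] B0) X0))
    (sX1 : Function.Surjective (algebraMap ((IsLocalRing.ResidueField O) ⊗[W] B1) X1))
    (sX01 : Function.Surjective (algebraMap ((IsLocalRing.ResidueField O) ⊗[W] B01) X01))
    (sY0 : Function.Surjective (algebraMap ((IsLocalRing.ResidueField O) ⊗[W] B0) Y0))
    (sY1 : Function.Surjective (algebraMap ((IsLocalRing.ResidueField O) ⊗[W] B1) Y1))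
    (sY01 : Function.Surjective (algebraMap ((IsLocalRing.ResidueField O) ⊗[W] B01) Y01))
    (h0 : RingHom.ker (algebraMap ((IsLocalRing.ResidueField O) ⊗[W] B0) X0) ⊓
      RingHom.ker (algebraMap ((IsLocalRing.ResidueField O) ⊗[W] B0) Y0) = ⊥)
    (h1 : RingHom.ker (algebraMap ((IsLocalRing.ResidueField O) ⊗[W] B1) X1) ⊓
      RingHom.ker (algebraMap ((IsLocalRing.ResidueField O) ⊗[W] B1) Y1) = ⊥)
    (h01 : RingHom.ker (algebraMap ((IsLocalRing.ResidueField O) ⊗[W] B01) X01) ⊓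
      RingHom.ker (algebraMap ((IsLocalRing.ResidueField O) ⊗[W] B01) Y01) = ⊥)
    (t0 : UnitsTorsionMod (RingHom.ker (algebraMap ((IsLocalRing.ResidueField O) ⊗[W] B0) X0) ⊔
      RingHom.ker (algebraMap ((IsLocalRing.ResidueField O) ⊗[W] B0) Y0)))
    (t1 : UnitsTorsionMod (RingHom.ker (algebraMap ((IsLocalRing.ResidueField O) ⊗[W] B1) X1) ⊔
      RingHom.ker (algebraMap ((IsLocalRing.ResidueField O) ⊗[W] B1) Y1)))
    (x : PicX c0 O) (hx : x ∈ P00)
    (hxX : LinePic.bc hX0' hX1' (c0.baseChange O) cX x = 1)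
    (hxY : LinePic.bc hY0' hY1' (c0.baseChange O) cY x = 1) :
    ∃ h : ℕ, 0 < h ∧ (PicX.map c0 O L x) ^ h ∈ J1L c0 O L P00 := by
  have eX : LinePic.bc hX0 hX1 (c0.baseChange (IsLocalRing.ResidueField O)) cX (red c0 O x) = 1 := by
    rw [← hxX]
    exact Fermat.Agent.T1B.Bal60.bc_bc _ _ hX0 hX1 hX0' hX1' (c0.baseChange O)
      (c0.baseChange (IsLocalRing.ResidueField O)) cX x
  have eY : LinePic.bc hY0 hY1 (c0.baseChange (IsLocalRing.ResidueField O)) cY (red c0 O x) = 1 := by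
    rw [← hxY]
    exact Fermat.Agent.T1B.Bal60.bc_bc _ _ hY0 hY1 hY0' hY1' (c0.baseChange O)
      (c0.baseChange (IsLocalRing.ResidueField O)) cY x
  obtain ⟨h, hpos, hh⟩ := exists_pow_eq_one_of_bc_of_unitsTorsion
    (c0.baseChange (IsLocalRing.ResidueField O)) cX cY hX0 hX1 hY0 hY1 sX0 sX1 sX01 sY0 sY1 sY01
    h0 h1 h01 t0 t1 (red c0 O x) eX eY
  refine ⟨h, hpos, ?_⟩
  rw [← map_pow]
  refine Subgroup.mem_map_of_mem _ ⟨P00.pow_mem hx h, ?_⟩
  show red c0 O (x ^ h) = 1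
  rw [map_pow, hh]

end CubeForm

/-! ### `Comp` form -/

section CompForm

variable {W B0 B1 B01 : Type u} [CommRing W] [CommRing B0] [CommRing B1] [CommRing B01]
  [Algebra W B0] [Algebra W B1] [Algebra W B01] [Algebra B0 B01] [Algebra B1 B01]
  [IsScalarTower W B0 B01] [IsScalarTower W B1 B01]
  (c0 : TwoChart W B0 B1 B01)
  {O : Type u} [CommRing O] [IsDomain O] [IsDiscreteValuationRing O] [Algebra W O]
  {L : Type u} [CommRing L] [Algebra W L] [Algebra O L] [IsScalarTower W O L]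

/-- The kernel of `O ⊗ B → κ ⊗ B` dies in any ring in which `π ⊗ 1` dies. -/
theorem ker_left_le_ker' {π : O} (hπ : IsLocalRing.maximalIdeal O = Ideal.span {π})
    (B : Type u) [CommRing B] [Algebra W B] {C : Type*} [CommRing C] (f : (O ⊗[W] B) →+* C)
    (hf : f (algebraMap O (O ⊗[W] B) π) = 0) :
    RingHom.ker (algebraMap (O ⊗[W] B) (IsLocalRing.ResidueField O ⊗[W] B)) ≤ RingHom.ker f := by
  refine (ker_algebraMap_left_le O B hπ).trans ?_
  rw [Ideal.span_le, Set.singleton_subset_iff]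
  exact hf

/-- On a component of genus `0`, classes of `P00` restrict trivially. -/
theorem res_eq_one_of_mem_P00 {A R0 R1 R01 : Type u} [CommRing A] [CommRing R0] [CommRing R1]
    [CommRing R01] [Algebra A R0] [Algebra A R1] [Algebra A R01] [Algebra R0 R01] [Algebra R1 R01]
    [IsScalarTower A R0 R01] [IsScalarTower A R1 R01] {c : TwoChart A R0 R1 R01} {p : A}
    {ι : Type} (hg : NodalGood c p ι) {K : Type u} [Field K]
    (X : ∀ i, Comp c (hg.P0 i) (hg.P1 i) K)
    (hH0 : ∀ i, Fermat.Agent.T1.Red68.H0Const (X i).chart) (hH1 : ∀ i, H1Zero (X i).chart)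
    {x : LinePic c} (hx : x ∈ P00 hg X) (i : ι) : (X i).res x = 1 := by
  have h := (mem_P00_iff hg X x).1 hx i
  rw [deg0_eq_bot (X i).chart (X i).fpl (hH0 i) (hH1 i), Subgroup.mem_bot] at h
  exact h

/-- **TORS, `Comp` form, core.**  `hg : NodalGood (c0.baseChange O) π (Fin 2)` the nodal special
fibre, `X i` its two components over `κ = O/π`, the units of the rings of nodes
`(O ⊗ B_j) ⧸ (P_j 0 ⊔ P_j 1)` torsion.  A class `x ∈ P00 hg X` which restricts trivially to both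
components has a power whose generic fibre lies in `J¹(L)`. -/
theorem exists_pow_mem_J1L_of_res_eq_one {π : O}
    (hπ : IsLocalRing.maximalIdeal O = Ideal.span {π})
    (hg : NodalGood (c0.baseChange O) π (Fin 2))
    (X : ∀ i, Comp (c0.baseChange O) (hg.P0 i) (hg.P1 i) (IsLocalRing.ResidueField O))
    (s01 : ∀ i, Function.Surjective (algebraMap (O ⊗[W] B01) (X i).C01))
    (ker01 : ∀ i, RingHom.ker (algebraMap (O ⊗[W] B01) (X i).C01) = hg.Q i)
    (inf01 : ∀ x : O ⊗[W] B01, (∀ i, x ∈ hg.Q i) →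
      ∃ y : O ⊗[W] B01, x = algebraMap O (O ⊗[W] B01) π * y)
    (t0 : UnitsTorsionMod (hg.P0 0 ⊔ hg.P0 1)) (t1 : UnitsTorsionMod (hg.P1 0 ⊔ hg.P1 1))
    (x : PicX c0 O) (hx : x ∈ P00 hg X) (hres : ∀ i, (X i).res x = 1) :
    ∃ h : ℕ, 0 < h ∧ (PicX.map c0 O L x) ^ h ∈ J1L c0 O L (P00 hg X) := by
  -- abbreviations
  let a0 := algebraMap (O ⊗[W] B0) (IsLocalRing.ResidueField O ⊗[W] B0)
  let a1 := algebraMap (O ⊗[W] B1) (IsLocalRing.ResidueField O ⊗[W] B1)
  let a01 := algebraMap (O ⊗[W] B01) (IsLocalRing.ResidueField O ⊗[W] B01)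
  have sa0 : Function.Surjective a0 := surjective_algebraMap_left O B0
  have sa1 : Function.Surjective a1 := surjective_algebraMap_left O B1
  have sa01 : Function.Surjective a01 := surjective_algebraMap_left O B01
  have memQ' : ∀ i, algebraMap O (O ⊗[W] B01) π ∈ hg.Q i := fun i => by
    have h := hg.mem0 i
    rw [← hg.comap0 i, Ideal.mem_comap, ← IsScalarTower.algebraMap_apply] at h
    exact h
  have k0 : ∀ i, RingHom.ker a0 ≤ RingHom.ker (algebraMap (O ⊗[W] B0) (X i).C0) := fun i =>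
    ker_left_le_ker' hπ B0 _ (by
      have := hg.mem0 i
      rw [← (X i).ker0] at this
      exact this)
  have k1 : ∀ i, RingHom.ker a1 ≤ RingHom.ker (algebraMap (O ⊗[W] B1) (X i).C1) := fun i =>
    ker_left_le_ker' hπ B1 _ (by
      have := hg.mem1 i
      rw [← (X i).ker1] at this
      exact this)
  have k01 : ∀ i, RingHom.ker a01 ≤ RingHom.ker (algebraMap (O ⊗[W] B01) (X i).C01) := fun i =>
    ker_left_le_ker' hπ B01 _ (by
      have := memQ' i
      rw [← ker01 i] at this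
      exact this)
  -- the `κ ⊗ B_j`-algebra structures on the components
  letI algX0 : Algebra (IsLocalRing.ResidueField O ⊗[W] B0) (X 0).C0 :=
    (RingHom.liftOfSurjective a0 sa0 ⟨algebraMap _ (X 0).C0, k0 0⟩).toAlgebra
  letI algX1 : Algebra (IsLocalRing.ResidueField O ⊗[W] B1) (X 0).C1 :=
    (RingHom.liftOfSurjective a1 sa1 ⟨algebraMap _ (X 0).C1, k1 0⟩).toAlgebra
  letI algX01 : Algebra (IsLocalRing.ResidueField O ⊗[W] B01) (X 0).C01 :=
    (RingHom.liftOfSurjective a01 sa01 ⟨algebraMap _ (X 0).C01, k01 0⟩).toAlgebra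
  letI algY0 : Algebra (IsLocalRing.ResidueField O ⊗[W] B0) (X 1).C0 :=
    (RingHom.liftOfSurjective a0 sa0 ⟨algebraMap _ (X 1).C0, k0 1⟩).toAlgebra
  letI algY1 : Algebra (IsLocalRing.ResidueField O ⊗[W] B1) (X 1).C1 :=
    (RingHom.liftOfSurjective a1 sa1 ⟨algebraMap _ (X 1).C1, k1 1⟩).toAlgebra
  letI algY01 : Algebra (IsLocalRing.ResidueField O ⊗[W] B01) (X 1).C01 :=
    (RingHom.liftOfSurjective a01 sa01 ⟨algebraMap _ (X 1).C01, k01 1⟩).toAlgebra
  have eX0 : ∀ z : O ⊗[W] B0, algebraMap (IsLocalRing.ResidueField O ⊗[W] B0) (X 0).C0 (a0 z) =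
      algebraMap (O ⊗[W] B0) (X 0).C0 z :=
    fun z => RingHom.liftOfSurjective_comp_apply a0 sa0 ⟨_, k0 0⟩ z
  have eX1 : ∀ z : O ⊗[W] B1, algebraMap (IsLocalRing.ResidueField O ⊗[W] B1) (X 0).C1 (a1 z) =
      algebraMap (O ⊗[W] B1) (X 0).C1 z :=
    fun z => RingHom.liftOfSurjective_comp_apply a1 sa1 ⟨_, k1 0⟩ z
  have eX01 : ∀ z : O ⊗[W] B01,
      algebraMap (IsLocalRing.ResidueField O ⊗[W] B01) (X 0).C01 (a01 z) =
      algebraMap (O ⊗[W] B01) (X 0).C01 z :=
    fun z => RingHom.liftOfSurjective_comp_apply a01 sa01 ⟨_, k01 0⟩ z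
  have eY0 : ∀ z : O ⊗[W] B0, algebraMap (IsLocalRing.ResidueField O ⊗[W] B0) (X 1).C0 (a0 z) =
      algebraMap (O ⊗[W] B0) (X 1).C0 z :=
    fun z => RingHom.liftOfSurjective_comp_apply a0 sa0 ⟨_, k0 1⟩ z
  have eY1 : ∀ z : O ⊗[W] B1, algebraMap (IsLocalRing.ResidueField O ⊗[W] B1) (X 1).C1 (a1 z) =
      algebraMap (O ⊗[W] B1) (X 1).C1 z :=
    fun z => RingHom.liftOfSurjective_comp_apply a1 sa1 ⟨_, k1 1⟩ z
  have eY01 : ∀ z : O ⊗[W] B01,
      algebraMap (IsLocalRing.ResidueField O ⊗[W] B01) (X 1).C01 (a01 z) =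
      algebraMap (O ⊗[W] B01) (X 1).C01 z :=
    fun z => RingHom.liftOfSurjective_comp_apply a01 sa01 ⟨_, k01 1⟩ z
  haveI tX0 : IsScalarTower (O ⊗[W] B0) (IsLocalRing.ResidueField O ⊗[W] B0) (X 0).C0 :=
    IsScalarTower.of_algebraMap_eq fun z => (eX0 z).symm
  haveI tX1 : IsScalarTower (O ⊗[W] B1) (IsLocalRing.ResidueField O ⊗[W] B1) (X 0).C1 :=
    IsScalarTower.of_algebraMap_eq fun z => (eX1 z).symm
  haveI tX01 : IsScalarTower (O ⊗[W] B01) (IsLocalRing.ResidueField O ⊗[W] B01) (X 0).C01 :=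
    IsScalarTower.of_algebraMap_eq fun z => (eX01 z).symm
  haveI tY0 : IsScalarTower (O ⊗[W] B0) (IsLocalRing.ResidueField O ⊗[W] B0) (X 1).C0 :=
    IsScalarTower.of_algebraMap_eq fun z => (eY0 z).symm
  haveI tY1 : IsScalarTower (O ⊗[W] B1) (IsLocalRing.ResidueField O ⊗[W] B1) (X 1).C1 :=
    IsScalarTower.of_algebraMap_eq fun z => (eY1 z).symm
  haveI tY01 : IsScalarTower (O ⊗[W] B01) (IsLocalRing.ResidueField O ⊗[W] B01) (X 1).C01 :=
    IsScalarTower.of_algebraMap_eq fun z => (eY01 z).symm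
  -- `π` dies in `κ ⊗ B_j`
  have hres0 : IsLocalRing.residue O π = 0 := by
    rw [IsLocalRing.residue_eq_zero_iff, hπ]
    exact Ideal.mem_span_singleton_self π
  have hπ0 : a0 (algebraMap O (O ⊗[W] B0) π) = 0 := by
    rw [Algebra.TensorProduct.algebraMap_apply]
    show a0 (algebraMap O O π ⊗ₜ[W] (1 : B0)) = 0
    rw [algebraMap_left_tmul W O (IsLocalRing.ResidueField O) B0]
    have : algebraMap O (IsLocalRing.ResidueField O) (algebraMap O O π) = 0 := hres0
    rw [this, TensorProduct.zero_tmul]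
  have hπ1 : a1 (algebraMap O (O ⊗[W] B1) π) = 0 := by
    rw [Algebra.TensorProduct.algebraMap_apply]
    show a1 (algebraMap O O π ⊗ₜ[W] (1 : B1)) = 0
    rw [algebraMap_left_tmul W O (IsLocalRing.ResidueField O) B1]
    have : algebraMap O (IsLocalRing.ResidueField O) (algebraMap O O π) = 0 := hres0
    rw [this, TensorProduct.zero_tmul]
  have hπ01 : a01 (algebraMap O (O ⊗[W] B01) π) = 0 := by
    rw [Algebra.TensorProduct.algebraMap_apply]
    show a01 (algebraMap O O π ⊗ₜ[W] (1 : B01)) = 0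
    rw [algebraMap_left_tmul W O (IsLocalRing.ResidueField O) B01]
    have : algebraMap O (IsLocalRing.ResidueField O) (algebraMap O O π) = 0 := hres0
    rw [this, TensorProduct.zero_tmul]
  -- the squares over `κ ⊗ B_j`
  have sq0 := square_comm W O (IsLocalRing.ResidueField O) B0 B01
  have sq1 := square_comm W O (IsLocalRing.ResidueField O) B1 B01
  have hX0 : (algebraMap (X 0).C0 (X 0).C01).comp
      (algebraMap (IsLocalRing.ResidueField O ⊗[W] B0) (X 0).C0) =
      (algebraMap (IsLocalRing.ResidueField O ⊗[W] B01) (X 0).C01).comp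
        (algebraMap (IsLocalRing.ResidueField O ⊗[W] B0)
          (IsLocalRing.ResidueField O ⊗[W] B01)) := by
    refine RingHom.ext fun z' => ?_
    obtain ⟨z, rfl⟩ := sa0 z'
    have h1 := RingHom.congr_fun (X 0).hc0 z
    have h2 := RingHom.congr_fun sq0 z
    simp only [RingHom.comp_apply] at h1 h2 ⊢
    rw [eX0, h1, h2, eX01]
  have hX1 : (algebraMap (X 0).C1 (X 0).C01).comp
      (algebraMap (IsLocalRing.ResidueField O ⊗[W] B1) (X 0).C1) =
      (algebraMap (IsLocalRing.ResidueField O ⊗[W] B01) (X 0).C01).comp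
        (algebraMap (IsLocalRing.ResidueField O ⊗[W] B1)
          (IsLocalRing.ResidueField O ⊗[W] B01)) := by
    refine RingHom.ext fun z' => ?_
    obtain ⟨z, rfl⟩ := sa1 z'
    have h1 := RingHom.congr_fun (X 0).hc1 z
    have h2 := RingHom.congr_fun sq1 z
    simp only [RingHom.comp_apply] at h1 h2 ⊢
    rw [eX1, h1, h2, eX01]
  have hY0 : (algebraMap (X 1).C0 (X 1).C01).comp
      (algebraMap (IsLocalRing.ResidueField O ⊗[W] B0) (X 1).C0) =
      (algebraMap (IsLocalRing.ResidueField O ⊗[W] B01) (X 1).C01).comp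
        (algebraMap (IsLocalRing.ResidueField O ⊗[W] B0)
          (IsLocalRing.ResidueField O ⊗[W] B01)) := by
    refine RingHom.ext fun z' => ?_
    obtain ⟨z, rfl⟩ := sa0 z'
    have h1 := RingHom.congr_fun (X 1).hc0 z
    have h2 := RingHom.congr_fun sq0 z
    simp only [RingHom.comp_apply] at h1 h2 ⊢
    rw [eY0, h1, h2, eY01]
  have hY1 : (algebraMap (X 1).C1 (X 1).C01).comp
      (algebraMap (IsLocalRing.ResidueField O ⊗[W] B1) (X 1).C1) =
      (algebraMap (IsLocalRing.ResidueField O ⊗[W] B01) (X 1).C01).comp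
        (algebraMap (IsLocalRing.ResidueField O ⊗[W] B1)
          (IsLocalRing.ResidueField O ⊗[W] B01)) := by
    refine RingHom.ext fun z' => ?_
    obtain ⟨z, rfl⟩ := sa1 z'
    have h1 := RingHom.congr_fun (X 1).hc1 z
    have h2 := RingHom.congr_fun sq1 z
    simp only [RingHom.comp_apply] at h1 h2 ⊢
    rw [eY1, h1, h2, eY01]
  -- surjectivity
  have sX0 : Function.Surjective (algebraMap (IsLocalRing.ResidueField O ⊗[W] B0) (X 0).C0) :=
    fun c => by obtain ⟨z, rfl⟩ := (X 0).surj0 c; exact ⟨a0 z, eX0 z⟩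
  have sX1 : Function.Surjective (algebraMap (IsLocalRing.ResidueField O ⊗[W] B1) (X 0).C1) :=
    fun c => by obtain ⟨z, rfl⟩ := (X 0).surj1 c; exact ⟨a1 z, eX1 z⟩
  have sX01 : Function.Surjective
      (algebraMap (IsLocalRing.ResidueField O ⊗[W] B01) (X 0).C01) :=
    fun c => by obtain ⟨z, rfl⟩ := s01 0 c; exact ⟨a01 z, eX01 z⟩
  have sY0 : Function.Surjective (algebraMap (IsLocalRing.ResidueField O ⊗[W] B0) (X 1).C0) :=
    fun c => by obtain ⟨z, rfl⟩ := (X 1).surj0 c; exact ⟨a0 z, eY0 z⟩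
  have sY1 : Function.Surjective (algebraMap (IsLocalRing.ResidueField O ⊗[W] B1) (X 1).C1) :=
    fun c => by obtain ⟨z, rfl⟩ := (X 1).surj1 c; exact ⟨a1 z, eY1 z⟩
  have sY01 : Function.Surjective
      (algebraMap (IsLocalRing.ResidueField O ⊗[W] B01) (X 1).C01) :=
    fun c => by obtain ⟨z, rfl⟩ := s01 1 c; exact ⟨a01 z, eY01 z⟩
  -- kernels
  have fin2 : ∀ {P : Fin 2 → Prop}, P 0 → P 1 → ∀ i, P i := fun h0 h1 i => by
    fin_cases i
    · exact h0
    · exact h1
  have h0 : RingHom.ker (algebraMap (IsLocalRing.ResidueField O ⊗[W] B0) (X 0).C0) ⊓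
      RingHom.ker (algebraMap (IsLocalRing.ResidueField O ⊗[W] B0) (X 1).C0) = ⊥ := by
    refine ker_inf_ker_eq_bot_of_surj a0 sa0 _ _ fun z hz0 hz1 => ?_
    rw [eX0] at hz0
    rw [eY0] at hz1
    have hz0' : z ∈ hg.P0 0 := by rw [← (X 0).ker0]; exact hz0
    have hz1' : z ∈ hg.P0 1 := by rw [← (X 1).ker0]; exact hz1
    obtain ⟨w, rfl⟩ := hg.inf0 z (fin2 hz0' hz1')
    rw [map_mul, hπ0, zero_mul]
  have h1 : RingHom.ker (algebraMap (IsLocalRing.ResidueField O ⊗[W] B1) (X 0).C1) ⊓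
      RingHom.ker (algebraMap (IsLocalRing.ResidueField O ⊗[W] B1) (X 1).C1) = ⊥ := by
    refine ker_inf_ker_eq_bot_of_surj a1 sa1 _ _ fun z hz0 hz1 => ?_
    rw [eX1] at hz0
    rw [eY1] at hz1
    have hz0' : z ∈ hg.P1 0 := by rw [← (X 0).ker1]; exact hz0
    have hz1' : z ∈ hg.P1 1 := by rw [← (X 1).ker1]; exact hz1
    obtain ⟨w, rfl⟩ := hg.inf1 z (fin2 hz0' hz1')
    rw [map_mul, hπ1, zero_mul]
  have h01 : RingHom.ker (algebraMap (IsLocalRing.ResidueField O ⊗[W] B01) (X 0).C01) ⊓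
      RingHom.ker (algebraMap (IsLocalRing.ResidueField O ⊗[W] B01) (X 1).C01) = ⊥ := by
    refine ker_inf_ker_eq_bot_of_surj a01 sa01 _ _ fun z hz0 hz1 => ?_
    rw [eX01] at hz0
    rw [eY01] at hz1
    have hz0' : z ∈ hg.Q 0 := by rw [← ker01 0]; exact hz0
    have hz1' : z ∈ hg.Q 1 := by rw [← ker01 1]; exact hz1
    obtain ⟨w, rfl⟩ := inf01 z (fin2 hz0' hz1')
    rw [map_mul, hπ01, zero_mul]
  -- the rings of nodes
  have e0X : RingHom.ker ((algebraMap (IsLocalRing.ResidueField O ⊗[W] B0) (X 0).C0).comp a0) =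
      hg.P0 0 := by
    refine Eq.trans ?_ (X 0).ker0
    ext z
    rw [RingHom.mem_ker, RingHom.mem_ker, RingHom.comp_apply, eX0]
  have e0Y : RingHom.ker ((algebraMap (IsLocalRing.ResidueField O ⊗[W] B0) (X 1).C0).comp a0) =
      hg.P0 1 := by
    refine Eq.trans ?_ (X 1).ker0
    ext z
    rw [RingHom.mem_ker, RingHom.mem_ker, RingHom.comp_apply, eY0]
  have e1X : RingHom.ker ((algebraMap (IsLocalRing.ResidueField O ⊗[W] B1) (X 0).C1).comp a1) =
      hg.P1 0 := by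
    refine Eq.trans ?_ (X 0).ker1
    ext z
    rw [RingHom.mem_ker, RingHom.mem_ker, RingHom.comp_apply, eX1]
  have e1Y : RingHom.ker ((algebraMap (IsLocalRing.ResidueField O ⊗[W] B1) (X 1).C1).comp a1) =
      hg.P1 1 := by
    refine Eq.trans ?_ (X 1).ker1
    ext z
    rw [RingHom.mem_ker, RingHom.mem_ker, RingHom.comp_apply, eY1]
  have t0' : UnitsTorsionMod
      (RingHom.ker (algebraMap (IsLocalRing.ResidueField O ⊗[W] B0) (X 0).C0) ⊔
        RingHom.ker (algebraMap (IsLocalRing.ResidueField O ⊗[W] B0) (X 1).C0)) := by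
    refine t0.of_surjective a0 sa0 ?_ ?_
    · have := comap_ker_sup_ker_le a0 sa0
        (algebraMap (IsLocalRing.ResidueField O ⊗[W] B0) (X 0).C0)
        (algebraMap (IsLocalRing.ResidueField O ⊗[W] B0) (X 1).C0)
      rwa [e0X, e0Y] at this
    · have := ker_sup_ker_le_comap a0
        (algebraMap (IsLocalRing.ResidueField O ⊗[W] B0) (X 0).C0)
        (algebraMap (IsLocalRing.ResidueField O ⊗[W] B0) (X 1).C0)
      rwa [e0X, e0Y] at this
  have t1' : UnitsTorsionMod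
      (RingHom.ker (algebraMap (IsLocalRing.ResidueField O ⊗[W] B1) (X 0).C1) ⊔
        RingHom.ker (algebraMap (IsLocalRing.ResidueField O ⊗[W] B1) (X 1).C1)) := by
    refine t1.of_surjective a1 sa1 ?_ ?_
    · have := comap_ker_sup_ker_le a1 sa1
        (algebraMap (IsLocalRing.ResidueField O ⊗[W] B1) (X 0).C1)
        (algebraMap (IsLocalRing.ResidueField O ⊗[W] B1) (X 1).C1)
      rwa [e1X, e1Y] at this
    · have := ker_sup_ker_le_comap a1
        (algebraMap (IsLocalRing.ResidueField O ⊗[W] B1) (X 0).C1)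
        (algebraMap (IsLocalRing.ResidueField O ⊗[W] B1) (X 1).C1)
      rwa [e1X, e1Y] at this
  exact exists_pow_mem_J1L_of_bc (X 0).chart (X 1).chart hX0 hX1 hY0 hY1
    (X 0).hc0 (X 0).hc1 (X 1).hc0 (X 1).hc1 sX0 sX1 sX01 sY0 sY1 sY01
    h0 h1 h01 t0' t1' x hx (hres 0) (hres 1)

/-- **TORS, `Comp` form: `J⁰(L) / J¹(L)` is torsion.**  `hg : NodalGood (c0.baseChange O) π (Fin 2)`
the nodal special fibre, `X i` its two components over `κ = O/π`, both of genus `0`
(`H⁰(O) = κ`, `H¹(O) = 0`), the units of the rings of nodes `(O ⊗ B_j) ⧸ (P_j 0 ⊔ P_j 1)` torsion.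
Every class of `J⁰(L)` has a power in `J¹(L)`. -/
theorem exists_pow_mem_J1L {π : O} (hπ : IsLocalRing.maximalIdeal O = Ideal.span {π})
    (hg : NodalGood (c0.baseChange O) π (Fin 2))
    (X : ∀ i, Comp (c0.baseChange O) (hg.P0 i) (hg.P1 i) (IsLocalRing.ResidueField O))
    (s01 : ∀ i, Function.Surjective (algebraMap (O ⊗[W] B01) (X i).C01))
    (ker01 : ∀ i, RingHom.ker (algebraMap (O ⊗[W] B01) (X i).C01) = hg.Q i)
    (inf01 : ∀ x : O ⊗[W] B01, (∀ i, x ∈ hg.Q i) →
      ∃ y : O ⊗[W] B01, x = algebraMap O (O ⊗[W] B01) π * y)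
    (hH0 : ∀ i, Fermat.Agent.T1.Red68.H0Const (X i).chart) (hH1 : ∀ i, H1Zero (X i).chart)
    (t0 : UnitsTorsionMod (hg.P0 0 ⊔ hg.P0 1)) (t1 : UnitsTorsionMod (hg.P1 0 ⊔ hg.P1 1))
    (y : PicX c0 L) (hy : y ∈ J0L c0 O L (P00 hg X)) :
    ∃ h : ℕ, 0 < h ∧ y ^ h ∈ J1L c0 O L (P00 hg X) := by
  obtain ⟨x, hx, rfl⟩ := Subgroup.mem_map.1 hy
  exact exists_pow_mem_J1L_of_res_eq_one c0 hπ hg X s01 ker01 inf01 t0 t1 x hx
    (res_eq_one_of_mem_P00 hg X hH0 hH1 hx)

/-- **TORS, `Comp` form, finite rings of nodes (finite residue field).** -/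
theorem exists_pow_mem_J1L_of_finite {π : O} (hπ : IsLocalRing.maximalIdeal O = Ideal.span {π})
    (hg : NodalGood (c0.baseChange O) π (Fin 2))
    (X : ∀ i, Comp (c0.baseChange O) (hg.P0 i) (hg.P1 i) (IsLocalRing.ResidueField O))
    (s01 : ∀ i, Function.Surjective (algebraMap (O ⊗[W] B01) (X i).C01))
    (ker01 : ∀ i, RingHom.ker (algebraMap (O ⊗[W] B01) (X i).C01) = hg.Q i)
    (inf01 : ∀ x : O ⊗[W] B01, (∀ i, x ∈ hg.Q i) →
      ∃ y : O ⊗[W] B01, x = algebraMap O (O ⊗[W] B01) π * y)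
    (hH0 : ∀ i, Fermat.Agent.T1.Red68.H0Const (X i).chart) (hH1 : ∀ i, H1Zero (X i).chart)
    [Finite ((O ⊗[W] B0) ⧸ (hg.P0 0 ⊔ hg.P0 1))] [Finite ((O ⊗[W] B1) ⧸ (hg.P1 0 ⊔ hg.P1 1))]
    (y : PicX c0 L) (hy : y ∈ J0L c0 O L (P00 hg X)) :
    ∃ h : ℕ, 0 < h ∧ y ^ h ∈ J1L c0 O L (P00 hg X) :=
  exists_pow_mem_J1L c0 hπ hg X s01 ker01 inf01 hH0 hH1 (unitsTorsionMod_of_finite _)
    (unitsTorsionMod_of_finite _) y hy

end CompForm

end Fermat.Agent.MAZ.PicFin75
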