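/-
MAZ row 738 (T1B-U3' TORS), ASSEMBLY over a FINITE residue field, helper75:
**`J⁰(L) / J¹(L)` is a torsion group**, for a nodal special fibre with two components of ANY genus.

Inputs: helper12's `PicFin12.deg0_torsion` (degree-zero classes on an integral two-chart curve over a
finite field are torsion), (TORS-b') `TorusTorsionGen` and the `Comp`-form core
`Assembly.exists_pow_mem_J1L_of_res_eq_one`.  The rings of nodes are automatically finite as soon as
the two components are distinct in each chart.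

* `finite_quotient_ker_sup` : `R ⧸ (ker φ ⊔ J)` is finite if `C ⧸ (φ f)` is, `f ∈ J`;
* `finite_nodes0`, `finite_nodes1` : the rings of nodes `(O ⊗ B_j) ⧸ (P_j 0 ⊔ P_j 1)` are finite;
* `exists_pow_mem_J1L_of_finite_residueField` : **the theorem** (= `htors` of `K3Abs43`).
-/
import Mathlib
import Fermat.Agent.MAZ.PicFin75.Assembly
import Fermat.Agent.MAZ.PicFin12.Deg0

set_option autoImplicit false
set_option linter.unusedSectionVars false
set_option linter.style.haveILetI false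

open TensorProduct

namespace Fermat.Agent.MAZ.PicFin75

open Fermat.Agent.Jac Fermat.Agent.Jac.LineOps39 Fermat.Agent.Jac.JGroup85Pic
open Fermat.Agent.Jac.JSmooth85Alg Fermat.Agent.Jac.BaseChange75
open Fermat.Agent.T1.RedIface75 Fermat.Agent.T1B.RedN3 Fermat.Agent.T1B.Bal60
open scoped Fermat.Agent.Jac.BaseChange75

universe u

/-- `R ⧸ (ker φ ⊔ J)` is a quotient of `C ⧸ (φ f)` for `φ : R → C` surjective and `f ∈ J`. -/
theorem finite_quotient_ker_sup {R C : Type*} [CommRing R] [CommRing C] (φ : R →+* C)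
    (hφ : Function.Surjective φ) (J : Ideal R) (f : R) (hfJ : f ∈ J)
    [Finite (C ⧸ Ideal.span {φ f})] : Finite (R ⧸ (RingHom.ker φ ⊔ J)) := by
  have hk : RingHom.ker φ ≤ RingHom.ker (Ideal.Quotient.mk (RingHom.ker φ ⊔ J)) := by
    rw [Ideal.mk_ker]; exact le_sup_left
  let ψ : C →+* R ⧸ (RingHom.ker φ ⊔ J) :=
    RingHom.liftOfSurjective φ hφ ⟨Ideal.Quotient.mk _, hk⟩
  have hψ : ∀ r : R, ψ (φ r) = Ideal.Quotient.mk _ r :=
    fun r => RingHom.liftOfSurjective_comp_apply φ hφ ⟨_, hk⟩ r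
  have hψf : ∀ a ∈ Ideal.span {φ f}, ψ a = 0 := by
    intro a ha
    obtain ⟨b, rfl⟩ := Ideal.mem_span_singleton'.1 ha
    rw [map_mul, hψ, Ideal.Quotient.eq_zero_iff_mem.2 (Ideal.mem_sup_right hfJ), mul_zero]
  let χ : C ⧸ Ideal.span {φ f} →+* R ⧸ (RingHom.ker φ ⊔ J) := Ideal.Quotient.lift _ ψ hψf
  have hχ : Function.Surjective χ := by
    intro z
    obtain ⟨r, rfl⟩ := Ideal.Quotient.mk_surjective z
    exact ⟨Ideal.Quotient.mk _ (φ r), by rw [Ideal.Quotient.lift_mk, hψ]⟩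
  exact Finite.of_surjective χ hχ

section Fin

variable {W B0 B1 B01 : Type u} [CommRing W] [CommRing B0] [CommRing B1] [CommRing B01]
  [Algebra W B0] [Algebra W B1] [Algebra W B01] [Algebra B0 B01] [Algebra B1 B01]
  [IsScalarTower W B0 B01] [IsScalarTower W B1 B01]
  (c0 : TwoChart W B0 B1 B01)
  {O : Type u} [CommRing O] [IsDomain O] [IsDiscreteValuationRing O] [Algebra W O]
  {L : Type u} [CommRing L] [Algebra W L] [Algebra O L] [IsScalarTower W O L]
  [Finite (IsLocalRing.ResidueField O)]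

/-- The ring of nodes in chart `0` is finite (finite residue field, distinct components). -/
theorem finite_nodes0 {π : O} (hg : NodalGood (c0.baseChange O) π (Fin 2))
    (X : ∀ i, Comp (c0.baseChange O) (hg.P0 i) (hg.P1 i) (IsLocalRing.ResidueField O))
    (hne0 : ¬ hg.P0 1 ≤ hg.P0 0) : Finite ((O ⊗[W] B0) ⧸ (hg.P0 0 ⊔ hg.P0 1)) := by
  obtain ⟨f, hf1, hf0⟩ := SetLike.not_le_iff_exists.1 hne0
  have hfne : algebraMap (O ⊗[W] B0) (X 0).C0 f ≠ 0 := by
    intro h
    apply hf0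
    rw [← (X 0).ker0]
    exact h
  haveI := PicFin12.finite_quot_span0 (X 0).chart (X 0).fpl _ hfne
  have := finite_quotient_ker_sup (algebraMap (O ⊗[W] B0) (X 0).C0) (X 0).surj0 (hg.P0 1) f hf1
  rwa [(X 0).ker0] at this

/-- The ring of nodes in chart `1` is finite (finite residue field, distinct components). -/
theorem finite_nodes1 {π : O} (hg : NodalGood (c0.baseChange O) π (Fin 2))
    (X : ∀ i, Comp (c0.baseChange O) (hg.P0 i) (hg.P1 i) (IsLocalRing.ResidueField O))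
    (hne1 : ¬ hg.P1 1 ≤ hg.P1 0) : Finite ((O ⊗[W] B1) ⧸ (hg.P1 0 ⊔ hg.P1 1)) := by
  obtain ⟨f, hf1, hf0⟩ := SetLike.not_le_iff_exists.1 hne1
  have hfne : algebraMap (O ⊗[W] B1) (X 0).C1 f ≠ 0 := by
    intro h
    apply hf0
    rw [← (X 0).ker1]
    exact h
  haveI := PicFin12.finite_quot_span1 (X 0).chart (X 0).fpl _ hfne
  have := finite_quotient_ker_sup (algebraMap (O ⊗[W] B1) (X 0).C1) (X 0).surj1 (hg.P1 1) f hf1
  rwa [(X 0).ker1] at this

/-- **TORS over a finite residue field: `J⁰(L) / J¹(L)` is torsion.**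
`hg : NodalGood (c0.baseChange O) π (Fin 2)` the nodal special fibre over the FINITE field
`κ = O/π`, `X i` its two components (integral, any genus), distinct in each chart.  Every class of
`J⁰(L)` has a power in `J¹(L)`. -/
theorem exists_pow_mem_J1L_of_finite_residueField {π : O}
    (hπ : IsLocalRing.maximalIdeal O = Ideal.span {π})
    (hg : NodalGood (c0.baseChange O) π (Fin 2))
    (X : ∀ i, Comp (c0.baseChange O) (hg.P0 i) (hg.P1 i) (IsLocalRing.ResidueField O))
    (s01 : ∀ i, Function.Surjective (algebraMap (O ⊗[W] B01) (X i).C01))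
    (ker01 : ∀ i, RingHom.ker (algebraMap (O ⊗[W] B01) (X i).C01) = hg.Q i)
    (inf01 : ∀ x : O ⊗[W] B01, (∀ i, x ∈ hg.Q i) →
      ∃ y : O ⊗[W] B01, x = algebraMap O (O ⊗[W] B01) π * y)
    (hne0 : ¬ hg.P0 1 ≤ hg.P0 0) (hne1 : ¬ hg.P1 1 ≤ hg.P1 0)
    (y : PicX c0 L) (hy : y ∈ J0L c0 O L (P00 hg X)) :
    ∃ h : ℕ, 0 < h ∧ y ^ h ∈ J1L c0 O L (P00 hg X) := by
  obtain ⟨x, hx, rfl⟩ := Subgroup.mem_map.1 hy
  haveI := finite_nodes0 c0 hg X hne0
  haveI := finite_nodes1 c0 hg X hne1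
  have hdeg := (mem_P00_iff hg X x).1 hx
  obtain ⟨n0, hn0, e0⟩ := PicFin12.deg0_torsion (X 0).chart (X 0).fpl _ (hdeg 0)
  obtain ⟨n1, hn1, e1⟩ := PicFin12.deg0_torsion (X 1).chart (X 1).fpl _ (hdeg 1)
  have hres : ∀ i, (X i).res (x ^ (n0 * n1)) = 1 := by
    intro i
    fin_cases i
    · show (X 0).res (x ^ (n0 * n1)) = 1
      rw [map_pow, pow_mul, e0, one_pow]
    · show (X 1).res (x ^ (n0 * n1)) = 1
      rw [map_pow, mul_comm, pow_mul, e1, one_pow]
  obtain ⟨h, hh, hmem⟩ := exists_pow_mem_J1L_of_res_eq_one (L := L) c0 hπ hg X s01 ker01 inf01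
    (unitsTorsionMod_of_finite _) (unitsTorsionMod_of_finite _) (x ^ (n0 * n1))
    ((P00 hg X).pow_mem hx _) hres
  refine ⟨n0 * n1 * h, Nat.mul_pos (Nat.mul_pos hn0 hn1) hh, ?_⟩
  rw [pow_mul, ← map_pow]
  exact hmem

end Fin

end Fermat.Agent.MAZ.PicFin75
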